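import Fermat.Agent.S37.H508.RimCharts
import Fermat.Agent.S18.H383.FF1Modular
import Fermat.Agent.S28.H988.Degree
import Fermat.Agent.Lib.RR.H383.Fundamental

/-!
# S37 / node_rim (helper928): the fields `FI`, `degQ`, `Q_val`, `hasPrincipalDivisors_Fk`
of helper508's assembly skeleton `Fermat/Agent/S37/H508/RimSkel.lean`

EXACT statements of the skeleton (namespace changed only):

* `FI` : the zero divisor of `j⁻¹` has the same degree on the generic fibre `ℚ̄(X₀(N))` and on
  the special fibre `k(X₀(N))` (both are `ψ(N) = [F : K(j)]`);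
* `hasPrincipalDivisors_Fk`, `degQ`, `Q_val` : char-`ℓ` function-field basics for `F_k`.

Generic tools:
* `sum_max_ord_inv_eq_finrank` : for `x` transcendental with `F / K(x)` finite, `K` algebraically
  closed (any characteristic): `∑_{P ∈ supp D} max (D P) 0 = [F : K(x)]` for `D = div (x⁻¹)`;
* `finrank_adjoin_jqModC` : `[F : k(j)] = (jField k).relfinrank F` for `F ⊆ k((q))` containing `j`.
-/

set_option autoImplicit false
set_option linter.style.haveILetI false
set_option linter.unusedSectionVars false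

noncomputable section

namespace Fermat.Agent.S37.H928

open ModularCurve HahnSeries AlgebraicCurve Polynomial IntermediateField
open Fermat.Agent.S37.H518 Fermat.Agent.S37.H508 Fermat.Agent.S28

section Generic

variable {K F : Type*} [Field K] [Field F] [Algebra K F] [IsAlgClosed K]

/-- The degree of the zero divisor of `x⁻¹` (= pole divisor of `x`) is `[F : K(x)]`. -/
theorem sum_max_ord_inv_eq_finrank {x : F} (hx : Transcendental K x) [FiniteDimensional K⟮x⟯ F]
    (D : Divisor K F) (hD : ∀ P, D P = P.ord x⁻¹) :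
    ∑ P ∈ D.support, max (D P) 0 = (Module.finrank K⟮x⟯ F : ℤ) := by
  classical
  have hfin := Fermat.Agent.Lib.RR.H383.finite_of_finite hx
  have hdeg : ∀ v : Place K F, v.deg = 1 :=
    fun v => Fermat.Agent.Lib.RR.H383.deg_eq_one_of_finite hx v
  set S : Finset (Place K F) := D.support.filter (fun v => v.ord x < 0) with hSdef
  have hS : ∀ v, v ∈ S ↔ v.ord x < 0 := by
    intro v
    rw [hSdef, Finset.mem_filter, Finsupp.mem_support_iff, hD, v.ord_inv]
    constructor
    · exact fun h => h.2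
    · intro h
      exact ⟨by omega, h⟩
  rw [← Fermat.Agent.Lib.RR.H383.sum_neg_ord_eq_finrank hfin hdeg hx S hS, hSdef,
    Finset.sum_filter]
  refine Finset.sum_congr rfl fun v _ => ?_
  rw [hD, v.ord_inv]
  split_ifs with h
  · exact max_eq_left (by omega)
  · exact max_eq_right (by omega)

end Generic

section Degree

variable (k : Type*) [Field k]

/-- `k(j)`, inside a subfield `F ⊆ k((q))` containing `j`, is the preimage of `k(j) ⊂ k((q))`. -/
theorem adjoin_jqModC_eq_comap (F : IntermediateField k (LaurentSeries k))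
    (hj : jqModC k ∈ F) :
    k⟮(⟨jqModC k, hj⟩ : F)⟯ = (jField k).comap F.val := by
  rw [← IntermediateField.comap_map F.val k⟮(⟨jqModC k, hj⟩ : F)⟯,
    IntermediateField.adjoin_map, Set.image_singleton]
  rfl

/-- `[F : k(j)] = (jField k).relfinrank F`. -/
theorem finrank_adjoin_jqModC (F : IntermediateField k (LaurentSeries k))
    (hj : jqModC k ∈ F) :
    Module.finrank k⟮(⟨jqModC k, hj⟩ : F)⟯ F = (jField k).relfinrank F := by
  rw [adjoin_jqModC_eq_comap k F hj, IntermediateField.finrank_comap,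
    IntermediateField.fieldRange_val]

end Degree

/-! ### The fields of the skeleton -/

section Fields

open Fermat.Agent.S24.H504

variable (N : ℕ) [NeZero N] {ℓ : ℕ} (hℓ : ℓ.Prime) (hℓN : ¬ ℓ ∣ N)
  (A : ValuationSubring (AlgebraicClosure ℚ)) (hA : A.LiesOverPrime ℓ)

local notation "πA" => IsLocalRing.residue A
local notation "kA" => IsLocalRing.ResidueField A
local notation "Fb" => modularFunctionFieldBar N
local notation "Fk" => modularFunctionFieldFullC kA N
local notation "ιA" => iotaF A πA N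
local notation "ρA" => rhoF A πA N

include hℓ hℓN hA

/-- the primes dividing `N` are invertible in the residue field of `A` -/
theorem natCast_ne_zero_residue (p : ℕ) (hp : p.Prime) (hpN : p ∣ N) : ((p : ℕ) : kA) ≠ 0 := by
  refine Fermat.Agent.S18.H9.resChar _ A ℓ p hℓ hp hA ?_
  rintro rfl
  exact hℓN hpN

/-- the residue field of `A` is algebraically closed -/
theorem isAlgClosed_residue : IsAlgClosed kA := Fermat.Agent.S18.H9.resAlgClosed _ A

/-- `F_k / k(j)` is finite. -/
theorem finiteDimensional_Fk :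
    FiniteDimensional kA⟮(⟨jqModC kA, jqModC_mem_full kA N⟩ : Fk)⟯ Fk :=
  Fermat.Agent.S18.H739.finiteDimensional_adjoin_jC kA N (natCast_ne_zero_residue N hℓ hℓN A hA)

/-- **field `hasPrincipalDivisors_Fk`**: `F_k` has principal divisors. -/
theorem hasPrincipalDivisors_Fk : HasPrincipalDivisors kA Fk :=
  (Fermat.Agent.S18.H383.ff1_residue N ℓ hℓ hℓN A hA).hpd

/-- **field `degQ`**: places of the special fibre have degree one. -/
theorem degQ (Q : Place kA Fk) : Q.deg = 1 :=
  (Fermat.Agent.S18.H383.ff1_residue N ℓ hℓ hℓN A hA).deg_eq_one Q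

/-- **field `Q_val`**: places of the special fibre are rational: values exist. -/
theorem Q_val (Q : Place kA Fk) (f : Fk) (hf : 0 ≤ Q.ord f) :
    ∃ c : kA, InMax Q (f - algebraMap kA Fk c) := by
  haveI := isAlgClosed_residue N hℓ hℓN A hA
  haveI := finiteDimensional_Fk N hℓ hℓN A hA
  obtain ⟨a, ha⟩ := Fermat.Agent.S24.FF.exists_const_sub_mem_nonunits Q
    (Fermat.Agent.S18.H739.transcendental_jC kA N) (Fermat.Agent.S24.FF.mem_of_ord_nonneg Q hf)
  refine ⟨a, ?_⟩
  by_cases h0 : f - algebraMap kA Fk a = 0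
  · exact Or.inl h0
  · exact Or.inr ((Fermat.Agent.S24.FF.ord_pos_iff_mem_nonunits Q h0).mpr ha)

omit hℓ hℓN hA in
/-- `ι (j⁻¹) = j⁻¹` in `ℚ̄(X₀(N))`. -/
theorem iotaF_jInvInt :
    ιA (jInvInt A N) = (⟨jqModC (AlgebraicClosure ℚ), jqModC_mem_bar N⟩ : Fb)⁻¹ := by
  apply Subtype.ext
  rw [coe_iotaF, coe_jInvInt, coeffMap_jInvS, jInvS_eq_inv]
  rfl

omit hℓ hℓN hA in
/-- `ρ (j⁻¹) = j̄⁻¹` in `k(X₀(N))`. -/
theorem rhoF_jInvInt :
    ρA (jInvInt A N) = (⟨jqModC kA, jqModC_mem_full kA N⟩ : Fk)⁻¹ := by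
  apply Subtype.ext
  rw [coe_rhoF, coe_jInvInt, coeffMap_jInvS, jInvS_eq_inv]
  rfl

/-- **field `FI`** [DEG]: the zero divisor of `j⁻¹` has the same degree on both fibres
(namely `ψ(N)`). -/
theorem FI (D₁ : Divisor (AlgebraicClosure ℚ) Fb) (E₁ : Divisor kA Fk)
    (hD : ∀ P, D₁ P = P.ord (ιA (jInvInt A N))) (hE : ∀ Q, E₁ Q = Q.ord (ρA (jInvInt A N))) :
    ∑ P ∈ D₁.support, max (D₁ P) 0 = ∑ Q ∈ E₁.support, max (E₁ Q) 0 := by
  haveI := isAlgClosed_residue N hℓ hℓN A hA
  haveI := finiteDimensional_Fk N hℓ hℓN A hA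
  -- generic fibre
  have hjb : jqModC (AlgebraicClosure ℚ) ∈ modularFunctionFieldFullC (AlgebraicClosure ℚ) N :=
    jqModC_mem_full _ N
  have hbar := Fermat.Agent.S28.H988.modularFunctionFieldBar_eq_fullC N
  have htb : Transcendental (AlgebraicClosure ℚ)
      (⟨jqModC (AlgebraicClosure ℚ), jqModC_mem_bar N⟩ : Fb) := by
    intro h
    have h2 : IsAlgebraic (AlgebraicClosure ℚ)
        (algebraMap Fb (LaurentSeries (AlgebraicClosure ℚ))
          ⟨jqModC (AlgebraicClosure ℚ), jqModC_mem_bar N⟩) := h.algebraMap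
    exact Fermat.Agent.S18.H739.transcendental_jqModC (AlgebraicClosure ℚ) h2
  have hrb : Module.finrank
      (AlgebraicClosure ℚ)⟮(⟨jqModC (AlgebraicClosure ℚ), jqModC_mem_bar N⟩ : Fb)⟯ Fb
        = dedekindPsi N := by
    rw [finrank_adjoin_jqModC (AlgebraicClosure ℚ) Fb (jqModC_mem_bar N)]
    exact Fermat.Agent.S28.H988.relfinrank_jField_bar_eq N (NeZero.ne N)
  haveI hfb : FiniteDimensional
      (AlgebraicClosure ℚ)⟮(⟨jqModC (AlgebraicClosure ℚ), jqModC_mem_bar N⟩ : Fb)⟯ Fb :=
    Module.finite_of_finrank_pos (by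
      rw [hrb]; exact Fermat.Agent.S28.H988.dedekindPsi_pos N (NeZero.ne N))
  have h1 := sum_max_ord_inv_eq_finrank htb D₁ (fun P => by rw [hD, iotaF_jInvInt])
  -- special fibre
  have hrk : Module.finrank kA⟮(⟨jqModC kA, jqModC_mem_full kA N⟩ : Fk)⟯ Fk = dedekindPsi N := by
    rw [finrank_adjoin_jqModC kA Fk (jqModC_mem_full kA N)]
    exact Fermat.Agent.S28.H988.relfinrank_jField_full_eq kA N (NeZero.ne N)
      (natCast_ne_zero_residue N hℓ hℓN A hA)
  have h2 := sum_max_ord_inv_eq_finrank (Fermat.Agent.S18.H739.transcendental_jC kA N) E₁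
    (fun Q => by rw [hE, rhoF_jInvInt])
  rw [h1, h2, hrb, hrk]

end Fields

end Fermat.Agent.S37.H928
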